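/-
JT3 / T0c (helper24): the prelude's `ModularCurve.HeckeInputsAlong (AlgebraicClosure ℚ) N ℓ` holds.

Over `Q̄` the function field `F̄_N` of `X₀(N)` is finite (separable: characteristic zero) over
`Q̄(j)`; the degeneracy maps `α` (inclusion) and `β` (`q ↦ q^ℓ`) `F̄_N → F̄_{Nℓ}` are finite, and the
relative place calculus of `JT3/Places/{Tower,TowerNorm,TowerAlong}.lean` gives the fundamental
identity and the norm formula; `HasPrincipalDivisors` is helper23's `rt_hasPrincipalDivisors`.
Hence `heckeOperatorAlong Q̄ N ℓ = heckePic0Bar …` is the genuine Hecke correspondence on `J₀(N)`.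
Prefix `hib_`.
-/
import Mathlib
import Fermat.Agent.JT3.Places.TowerAlong
import Fermat.Agent.JT3.Riemann.Principal
import Fermat.Agent.S24.Bridge.Degree
import Fermat.Prelude.Def_ModularCurve_HeckeOperatorTotal

set_option autoImplicit false
set_option linter.unusedSectionVars false
set_option linter.style.haveILetI false

namespace Fermat.Agent.JT3

open AlgebraicCurve IntermediateField ModularCurve
open Fermat.Agent.S24

section InputsBar

variable (N ℓ : ℕ) [NeZero N] [NeZero ℓ]

instance hib_isAlgebraic : Algebra.IsAlgebraic Kbar⟮br_jBar N⟯ (Fbar N) :=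
  Algebra.IsAlgebraic.of_finite _ _

theorem hib_isSeparable : Algebra.IsSeparable Kbar⟮br_jBar N⟯ (Fbar N) := by
  haveI : CharZero Kbar⟮br_jBar N⟯ :=
    charZero_of_injective_algebraMap (algebraMap Kbar _).injective
  exact Algebra.IsAlgebraic.isSeparable_of_perfectField

/-- `j` is a separating generator of `F̄_N / Q̄`. -/
theorem hib_isSepGen : rt_IsSepGen Kbar (br_jBar N) :=
  ⟨br_jBar_transcendental N, br_finiteDimensional N, hib_isSeparable N⟩

/-- **`HasPrincipalDivisors Q̄ F̄_N`** (principal divisors exist and have degree zero). -/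
instance hib_hasPrincipalDivisors : HasPrincipalDivisors Kbar (Fbar N) :=
  rt_hasPrincipalDivisors (hib_isSepGen N)

theorem hib_alpha_jBar : heckeAlphaBar Kbar N ℓ (br_jBar N) = br_jBar (N * ℓ) :=
  Subtype.ext rfl

/-- `α` is finite. -/
theorem hib_finiteAlong_alpha : FiniteAlong Kbar (heckeAlphaBar Kbar N ℓ) := by
  haveI : FiniteDimensional Kbar⟮heckeAlphaBar Kbar N ℓ (br_jBar N)⟯ (Fbar (N * ℓ)) := by
    rw [hib_alpha_jBar]; exact br_finiteDimensional (N * ℓ)
  exact ptw_finiteAlong_of_adjoin (heckeAlphaBar Kbar N ℓ) (br_jBar N)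

/-- `β` is finite. -/
theorem hib_finiteAlong_beta : FiniteAlong Kbar (heckeBetaBar Kbar N ℓ) := by
  have htr : Transcendental Kbar (heckeBetaBar Kbar N ℓ (br_jBar N)) := by
    intro h
    exact br_jBar_transcendental N
      ((isAlgebraic_algHom_iff (heckeBetaBar Kbar N ℓ) (heckeBetaBar Kbar N ℓ).injective).mp h)
  haveI : FiniteDimensional Kbar⟮heckeBetaBar Kbar N ℓ (br_jBar N)⟯ (Fbar (N * ℓ)) :=
    hw_finiteDimensional_adjoin (br_jBar (N * ℓ)) htr
  exact ptw_finiteAlong_of_adjoin (heckeBetaBar Kbar N ℓ) (br_jBar N)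

theorem hib_alphaIntegral : HeckeAlphaBarIntegral Kbar N ℓ :=
  ptw_isIntegral_of_finiteAlong _ (hib_finiteAlong_alpha N ℓ)

theorem hib_betaIntegral : HeckeBetaBarIntegral Kbar N ℓ :=
  ptw_isIntegral_of_finiteAlong _ (hib_finiteAlong_beta N ℓ)

/-- The fundamental identity along `α` and along `β`. -/
theorem hib_fundamentalIdentityAlong_alpha :
    FundamentalIdentityAlong Kbar (heckeAlphaBar Kbar N ℓ) (hib_alphaIntegral N ℓ) :=
  ptw_fundamentalIdentityAlong _ _ (hib_finiteAlong_alpha N ℓ)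
    (ptw_separableAlong_of_charZero _ (hib_finiteAlong_alpha N ℓ)) (br_jBar N) (br_jBar (N * ℓ))

theorem hib_fundamentalIdentityAlong_beta :
    FundamentalIdentityAlong Kbar (heckeBetaBar Kbar N ℓ) (hib_betaIntegral N ℓ) :=
  ptw_fundamentalIdentityAlong _ _ (hib_finiteAlong_beta N ℓ)
    (ptw_separableAlong_of_charZero _ (hib_finiteAlong_beta N ℓ)) (br_jBar N) (br_jBar (N * ℓ))

/-- The norm formula along `α` and along `β`. -/
theorem hib_normFormulaAlong_alpha :
    NormFormulaAlong Kbar (heckeAlphaBar Kbar N ℓ) (hib_finiteAlong_alpha N ℓ) :=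
  ptw_normFormulaAlong _ (hib_finiteAlong_alpha N ℓ)
    (ptw_separableAlong_of_charZero _ (hib_finiteAlong_alpha N ℓ)) (br_jBar N) (br_jBar (N * ℓ))

theorem hib_normFormulaAlong_beta :
    NormFormulaAlong Kbar (heckeBetaBar Kbar N ℓ) (hib_finiteAlong_beta N ℓ) :=
  ptw_normFormulaAlong _ (hib_finiteAlong_beta N ℓ)
    (ptw_separableAlong_of_charZero _ (hib_finiteAlong_beta N ℓ)) (br_jBar N) (br_jBar (N * ℓ))

/-- **The prelude's `HeckeInputsAlong Q̄ N ℓ` holds.** -/
theorem hib_heckeInputsAlong : HeckeInputsAlong (AlgebraicClosure ℚ) N ℓ :=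
  heckeInputsAlong_intro (hib_alphaIntegral N ℓ) (hib_betaIntegral N ℓ)
    (hib_fundamentalIdentityAlong_beta N ℓ) (hib_finiteAlong_alpha N ℓ)
    (hib_normFormulaAlong_alpha N ℓ)

/-- The total Hecke operator is the genuine correspondence. -/
theorem hib_heckeOperatorAlong_eq :
    heckeOperatorAlong (AlgebraicClosure ℚ) N ℓ =
      heckePic0Bar (hib_alphaIntegral N ℓ) (hib_betaIntegral N ℓ)
        (hib_fundamentalIdentityAlong_beta N ℓ) (hib_finiteAlong_alpha N ℓ)
        (hib_normFormulaAlong_alpha N ℓ) :=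
  heckeOperatorAlong_eq _ _ _ _ _

end InputsBar

end Fermat.Agent.JT3
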